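import Mathlib

/-!
# S14, analytic route: comparison of the sums of a function over a group and over a subgroup of
finite index (abstract part of U5)

For a subgroup `H` of finite index `m` of an additive commutative group `A` and a summable
`f : A → ℝ`:  `∑_A f - m ∑_H f = ∑_{q ∈ A/H} ∑_{h ∈ H} (f (rep q + h) - f h)`.
-/

set_option autoImplicit false

namespace Fermat.Agent.S14CZ

section abstract

variable {A : Type*} [AddCommGroup A] (H : AddSubgroup A)

/-- The bijection `(A ⧸ H) × H ≃ A`, `(q, h) ↦ rep q + h`. -/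
noncomputable def cosetProdEquiv : (A ⧸ H) × H ≃ A :=
  Equiv.ofBijective (fun p ↦ Quotient.out p.1 + (p.2 : A)) (by
    constructor
    · rintro ⟨q, h⟩ ⟨q', h'⟩ hqq
      simp only at hqq
      have h1 : ((Quotient.out q + (h : A) : A) : A ⧸ H) = q := by
        rw [QuotientAddGroup.mk_add_of_mem _ h.2]
        exact Quotient.out_eq' q
      have h2 : ((Quotient.out q' + (h' : A) : A) : A ⧸ H) = q' := by
        rw [QuotientAddGroup.mk_add_of_mem _ h'.2]
        exact Quotient.out_eq' q'
      have hq : q = q' := by rw [← h1, ← h2, hqq]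
      subst hq
      have : (h : A) = h' := add_left_cancel hqq
      rw [Subtype.ext this]
    · intro a
      have hmem : - Quotient.out (a : A ⧸ H) + a ∈ H := by
        rw [← QuotientAddGroup.eq]
        exact Quotient.out_eq' _
      exact ⟨⟨(a : A ⧸ H), ⟨_, hmem⟩⟩, by simp⟩)

@[simp]
lemma cosetProdEquiv_apply (p : (A ⧸ H) × H) :
    cosetProdEquiv H p = Quotient.out p.1 + (p.2 : A) := rfl

/-- **Abstract comparison**: if `|f (rep q + h) - f h| ≤ K q * g h` with `g` summable on `H`,
then `|∑_A f - [A : H] ∑_H f| ≤ (∑_q K q) * ∑_H g`. -/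
theorem abs_tsum_sub_card_mul_tsum_le [Fintype (A ⧸ H)] (f : A → ℝ) (g : H → ℝ) (K : A ⧸ H → ℝ)
    (hf : Summable f) (hg : Summable g)
    (hK : ∀ (q : A ⧸ H) (h : H), |f (Quotient.out q + (h : A)) - f (h : A)| ≤ K q * g h) :
    |∑' a, f a - (Fintype.card (A ⧸ H) : ℝ) * ∑' h : H, f (h : A)| ≤
      (∑ q, K q) * ∑' h, g h := by
  have hfH : Summable fun h : H ↦ f (h : A) := hf.subtype _
  have hfe : Summable fun p : (A ⧸ H) × H ↦ f (cosetProdEquiv H p) :=
    (cosetProdEquiv H).summable_iff.mpr hf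
  have hfq : ∀ q : A ⧸ H, Summable fun h : H ↦ f (Quotient.out q + (h : A)) := fun q ↦ by
    have := hfe.comp_injective (Prod.mk_right_injective q)
    exact this
  have h1 : ∑' a, f a = ∑ q : A ⧸ H, ∑' h : H, f (Quotient.out q + (h : A)) := by
    rw [← (cosetProdEquiv H).tsum_eq f, hfe.tsum_prod' (fun q ↦ hfq q), tsum_fintype]
    rfl
  have h2 : (Fintype.card (A ⧸ H) : ℝ) * ∑' h : H, f (h : A) =
      ∑ _q : A ⧸ H, ∑' h : H, f (h : A) := by
    rw [Finset.sum_const, Finset.card_univ, nsmul_eq_mul]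
  rw [h1, h2, ← Finset.sum_sub_distrib, Finset.sum_mul]
  refine (Finset.abs_sum_le_sum_abs _ _).trans (Finset.sum_le_sum fun q _ ↦ ?_)
  rw [← (hfq q).tsum_sub hfH, ← tsum_mul_left]
  have hsum : Summable fun h : H ↦ f (Quotient.out q + (h : A)) - f (h : A) :=
    (hfq q).sub hfH
  have hbd : Summable fun h : H ↦ K q * g h := hg.mul_left _
  calc |∑' h : H, (f (Quotient.out q + (h : A)) - f (h : A))|
      ≤ ∑' h : H, |f (Quotient.out q + (h : A)) - f (h : A)| := by
        have := norm_tsum_le_tsum_norm (f := fun h : H ↦ f (Quotient.out q + (h : A)) - f (h : A))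
          hsum.norm
        simpa [Real.norm_eq_abs] using this
    _ ≤ ∑' h : H, K q * g h :=
        (hsum.abs).tsum_le_tsum (fun h ↦ hK q h) hbd

end abstract

end Fermat.Agent.S14CZ
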