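import Mathlib
import Fermat.Agent.S14.ClassZeta.Defs

/-!
# S14, analytic route: the smoothed weight `czF` and its pointwise Lipschitz estimate (U4)

`czF E φ0 s x = φ0 (logMap x) * N(x) ^ (-s)` on the mixed space of a number field `E`, where `φ0` is a
bounded Lipschitz function with bounded support on the logarithmic space.  We prove that
`|czF E φ0 s (x + ρ) - czF E φ0 s x| ≤ C * (1 + ‖ρ‖) ^ (d + 1) * ‖x‖ ^ (-(d + 1))`, uniformly in
`s ∈ [1, 2]`, for points `x`, `x + ρ` where the norm `N` is `0` or `≥ 1` (e.g. lattice points).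
-/

set_option autoImplicit false

open NumberField NumberField.InfinitePlace NumberField.mixedEmbedding NumberField.Units
  NumberField.Units.dirichletUnitTheorem Module

namespace Fermat.Agent.S14CZ

open Fermat.Agent.S14 (czF classZeta cutoff)

open scoped Classical

set_option linter.unusedSectionVars false

variable {E : Type*} [Field E] [NumberField E]

/-- The number of infinite places, as a real number. -/
noncomputable def czKappa (E : Type*) [Field E] [NumberField E] : ℝ :=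
  (Fintype.card (InfinitePlace E) : ℝ)

/-- The degree, as a real number. -/
noncomputable def czDeg (E : Type*) [Field E] [NumberField E] : ℝ := (finrank ℚ E : ℝ)

lemma czDeg_pos : 0 < czDeg E := by
  unfold czDeg
  exact_mod_cast finrank_pos

lemma czKappa_nonneg : 0 ≤ czKappa E := by
  unfold czKappa
  positivity

lemma one_le_mult_real (w : InfinitePlace E) : (1 : ℝ) ≤ (mult w : ℝ) := by
  have : 1 ≤ mult w := by
    unfold mult; split_ifs <;> norm_num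
  exact_mod_cast this

lemma mult_real_le_two (w : InfinitePlace E) : (mult w : ℝ) ≤ 2 := by
  have : mult w ≤ 2 := by
    unfold mult; split_ifs <;> norm_num
  exact_mod_cast this

lemma normAtPlace_pos_of_norm_ne_zero {x : mixedSpace E} (hx : mixedEmbedding.norm x ≠ 0)
    (w : InfinitePlace E) : 0 < normAtPlace w x :=
  lt_of_le_of_ne (normAtPlace_nonneg _ _) (mixedEmbedding.norm_ne_zero_iff.mp hx w).symm

lemma normAtPlace_le_norm (w : InfinitePlace E) (x : mixedSpace E) : normAtPlace w x ≤ ‖x‖ := by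
  classical
  rw [norm_eq_sup'_normAtPlace]
  exact Finset.le_sup' (fun w ↦ normAtPlace w x) (Finset.mem_univ w)

lemma exists_normAtPlace_eq_norm (x : mixedSpace E) : ∃ w : InfinitePlace E, normAtPlace w x = ‖x‖ := by
  classical
  rw [norm_eq_sup'_normAtPlace]
  obtain ⟨w, -, hw⟩ := Finset.exists_mem_eq_sup' Finset.univ_nonempty (fun w ↦ normAtPlace w x)
  exact ⟨w, hw.symm⟩

/-- `log N(x) = ∑ mult w * log |x|_w`. -/
lemma log_norm_eq_sum {x : mixedSpace E} (hx : mixedEmbedding.norm x ≠ 0) :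
    Real.log (mixedEmbedding.norm x) = ∑ w : InfinitePlace E, (mult w : ℝ) * Real.log (normAtPlace w x) := by
  rw [mixedEmbedding.norm_apply, Real.log_prod]
  · refine Finset.sum_congr rfl fun w _ ↦ ?_
    rw [Real.log_pow]
  · intro w _
    exact pow_ne_zero _ (mixedEmbedding.norm_ne_zero_iff.mp hx w)

lemma sum_mult_real : ∑ w : InfinitePlace E, (mult w : ℝ) = czDeg E := by
  unfold czDeg
  exact_mod_cast sum_mult_eq (K := E)

/-- The centred logarithm at the place `w`. -/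
noncomputable def czT (x : mixedSpace E) (w : InfinitePlace E) : ℝ :=
  Real.log (normAtPlace w x) - Real.log (mixedEmbedding.norm x) * (czDeg E)⁻¹

lemma sum_mult_czT {x : mixedSpace E} (hx : mixedEmbedding.norm x ≠ 0) :
    ∑ w : InfinitePlace E, (mult w : ℝ) * czT x w = 0 := by
  unfold czT
  simp_rw [mul_sub, Finset.sum_sub_distrib, ← log_norm_eq_sum hx, ← mul_assoc, ← Finset.sum_mul]
  rw [sum_mult_real, mul_comm (czDeg E), mul_assoc,
    mul_inv_cancel₀ (czDeg_pos (E := E)).ne', mul_one, sub_self]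

lemma logMap_eq_mult_czT (x : mixedSpace E) (w : {w : InfinitePlace E // w ≠ w₀}) :
    logMap x w = (mult w.1 : ℝ) * czT x w.1 := by
  rw [logMap_apply]
  rfl


/-- On the set where `‖logMap x‖ ≤ R`, all centred logarithms are bounded by `κ R`. -/
lemma abs_czT_le {x : mixedSpace E} (hx : mixedEmbedding.norm x ≠ 0) {R : ℝ}
    (hR : ‖logMap x‖ ≤ R) (w : InfinitePlace E) : |czT x w| ≤ czKappa E * R := by
  have hR0 : 0 ≤ R := (norm_nonneg _).trans hR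
  have hκ1 : (1 : ℝ) ≤ czKappa E := by
    unfold czKappa
    exact_mod_cast Fintype.card_pos
  have hlog : ∀ v : {w : InfinitePlace E // w ≠ w₀}, |logMap x v| ≤ R := fun v ↦
    (Real.norm_eq_abs _ ▸ norm_le_pi_norm (logMap x) v).trans hR
  by_cases hw : w = w₀
  · subst hw
    have h0 := sum_mult_czT hx
    rw [Fintype.sum_eq_add_sum_subtype_ne _ (w₀ : InfinitePlace E)] at h0
    have h1 : (mult (w₀ : InfinitePlace E) : ℝ) * czT x w₀ =
        - ∑ v : {w : InfinitePlace E // w ≠ w₀}, logMap x v := by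
      simp_rw [logMap_eq_mult_czT]
      linarith
    have h2 : |∑ v : {w : InfinitePlace E // w ≠ w₀}, logMap x v| ≤
        (Fintype.card {w : InfinitePlace E // w ≠ w₀} : ℝ) * R := by
      refine (Finset.abs_sum_le_sum_abs _ _).trans ?_
      refine (Finset.sum_le_sum fun v _ ↦ hlog v).trans ?_
      simp
    have h3 : (Fintype.card {w : InfinitePlace E // w ≠ w₀} : ℝ) ≤ czKappa E := by
      unfold czKappa
      exact_mod_cast Fintype.card_subtype_le _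
    have h4 : |czT x w₀| ≤ |(mult (w₀ : InfinitePlace E) : ℝ) * czT x w₀| := by
      rw [abs_mul]
      have := one_le_mult_real (w₀ : InfinitePlace E)
      rw [abs_of_nonneg (by linarith : (0 : ℝ) ≤ (mult (w₀ : InfinitePlace E) : ℝ))]
      nlinarith [abs_nonneg (czT x w₀)]
    rw [h1, abs_neg] at h4
    calc |czT x w₀| ≤ _ := h4
      _ ≤ _ := h2
      _ ≤ czKappa E * R := by gcongr
  · have h1 := hlog ⟨w, hw⟩
    rw [logMap_eq_mult_czT, abs_mul] at h1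
    have := one_le_mult_real w
    rw [abs_of_nonneg (by linarith : (0 : ℝ) ≤ (mult w : ℝ))] at h1
    have h5 : |czT x w| ≤ R := by nlinarith [abs_nonneg (czT x w)]
    nlinarith


/-- The cone constant attached to a bound `R` for `‖logMap x‖`. -/
noncomputable def czCone (E : Type*) [Field E] [NumberField E] (R : ℝ) : ℝ :=
  Real.exp (-(2 * czKappa E * R))

lemma czCone_pos (R : ℝ) : 0 < czCone E R := Real.exp_pos _

lemma czCone_le_one {R : ℝ} (hR : 0 ≤ R) : czCone E R ≤ 1 := by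
  unfold czCone
  rw [Real.exp_le_one_iff]
  have := czKappa_nonneg (E := E)
  nlinarith

/-- **Cone property**: where `‖logMap x‖ ≤ R`, every `|x|_w` is at least `czCone R * ‖x‖`. -/
lemma czCone_mul_norm_le {x : mixedSpace E} (hx : mixedEmbedding.norm x ≠ 0) {R : ℝ}
    (hR : ‖logMap x‖ ≤ R) (w : InfinitePlace E) : czCone E R * ‖x‖ ≤ normAtPlace w x := by
  obtain ⟨v, hv⟩ := exists_normAtPlace_eq_norm x
  have hw0 := normAtPlace_pos_of_norm_ne_zero hx w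
  have hv0 := normAtPlace_pos_of_norm_ne_zero hx v
  have h1 := abs_le.mp (abs_czT_le hx hR w)
  have h2 := abs_le.mp (abs_czT_le hx hR v)
  unfold czT at h1 h2
  have h3 : Real.log (normAtPlace v x) - 2 * czKappa E * R ≤ Real.log (normAtPlace w x) := by
    linarith [h1.1, h2.2]
  rw [← hv]
  unfold czCone
  calc Real.exp (-(2 * czKappa E * R)) * normAtPlace v x
      = Real.exp (Real.log (normAtPlace v x) - 2 * czKappa E * R) := by
        rw [sub_eq_add_neg, Real.exp_add, Real.exp_log hv0, mul_comm]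
    _ ≤ Real.exp (Real.log (normAtPlace w x)) := Real.exp_le_exp.mpr h3
    _ = normAtPlace w x := Real.exp_log hw0

/-- If all `|x|_w ≥ c ‖x‖` then `N(x) ≥ (c ‖x‖) ^ d`. -/
lemma pow_le_norm_of_cone {x : mixedSpace E} {c : ℝ} (hc : 0 ≤ c)
    (h : ∀ w : InfinitePlace E, c * ‖x‖ ≤ normAtPlace w x) :
    (c * ‖x‖) ^ (finrank ℚ E) ≤ mixedEmbedding.norm x := by
  rw [mixedEmbedding.norm_apply, ← sum_mult_eq (K := E), ← Finset.prod_pow_eq_pow_sum]
  refine Finset.prod_le_prod (fun w _ ↦ by positivity) fun w _ ↦ ?_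
  exact pow_le_pow_left₀ (by positivity) (h w) _

/-- Elementary: a relative perturbation of size `θ ≤ 1/2` changes the logarithm by at most `2θ`. -/
lemma abs_log_sub_log_le {a b θ : ℝ} (ha : 0 < a) (hθ : θ ≤ 1 / 2) (hab : |b - a| ≤ θ * a) :
    0 < b ∧ |Real.log b - Real.log a| ≤ 2 * θ := by
  have hθ0 : 0 ≤ θ := by
    by_contra h
    rw [not_le] at h
    have : θ * a < 0 := mul_neg_of_neg_of_pos h ha
    linarith [abs_nonneg (b - a)]
  obtain ⟨h1, h2⟩ := abs_le.mp hab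
  have hb : 0 < b := by nlinarith
  refine ⟨hb, ?_⟩
  rw [← Real.log_div hb.ne' ha.ne']
  have hr : 0 < b / a := div_pos hb ha
  have hr1 : b / a ≤ 1 + θ := by
    rw [div_le_iff₀ ha]; nlinarith
  have hr2 : 1 - θ ≤ b / a := by
    rw [le_div_iff₀ ha]; nlinarith
  rw [abs_le]
  constructor
  · have := Real.one_sub_inv_le_log_of_pos hr
    have h3 : (b / a)⁻¹ ≤ (1 - θ)⁻¹ := inv_anti₀ (by linarith) hr2
    have h4 : (1 - θ)⁻¹ ≤ 1 + 2 * θ := by
      rw [inv_le_iff_one_le_mul₀ (by linarith)]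
      nlinarith
    linarith
  · have := Real.log_le_sub_one_of_pos hr
    linarith

lemma abs_normAtPlace_sub_le (w : InfinitePlace E) (x y : mixedSpace E) :
    |normAtPlace w y - normAtPlace w x| ≤ ‖y - x‖ := by
  have h1 : normAtPlace w y ≤ normAtPlace w (y - x) + normAtPlace w x := by
    have := normAtPlace_add_le w (y - x) x
    rwa [sub_add_cancel] at this
  have h2 : normAtPlace w x ≤ normAtPlace w (x - y) + normAtPlace w y := by
    have := normAtPlace_add_le w (x - y) y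
    rwa [sub_add_cancel] at this
  have h3 : normAtPlace w (x - y) = normAtPlace w (y - x) := by
    rw [← normAtPlace_neg, neg_sub]
  have h4 := normAtPlace_le_norm w (y - x)
  rw [abs_le]
  constructor <;> linarith

/-- **Perturbation in the cone**: if all `|x|_w ≥ c ‖x‖` and `‖y - x‖ ≤ θ c ‖x‖` with `θ ≤ 1/2`
then `y` has nonzero coordinates and its logarithms differ from those of `x` by at most `2θ`. -/
lemma cone_perturb {x y : mixedSpace E} {c θ : ℝ} (hx : mixedEmbedding.norm x ≠ 0)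
    (h : ∀ w : InfinitePlace E, c * ‖x‖ ≤ normAtPlace w x)
    (hθ0 : 0 ≤ θ) (hθ : θ ≤ 1 / 2) (hy : ‖y - x‖ ≤ θ * (c * ‖x‖)) (w : InfinitePlace E) :
    0 < normAtPlace w y ∧ |Real.log (normAtPlace w y) - Real.log (normAtPlace w x)| ≤ 2 * θ := by
  have hw0 := normAtPlace_pos_of_norm_ne_zero hx w
  refine abs_log_sub_log_le hw0 hθ ?_
  calc |normAtPlace w y - normAtPlace w x| ≤ ‖y - x‖ := abs_normAtPlace_sub_le w x y
    _ ≤ θ * (c * ‖x‖) := hy
    _ ≤ θ * normAtPlace w x := by gcongr; exact h w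

lemma cone_perturb_norm_ne_zero {x y : mixedSpace E} {c θ : ℝ} (hx : mixedEmbedding.norm x ≠ 0)
    (h : ∀ w : InfinitePlace E, c * ‖x‖ ≤ normAtPlace w x)
    (hθ0 : 0 ≤ θ) (hθ : θ ≤ 1 / 2) (hy : ‖y - x‖ ≤ θ * (c * ‖x‖)) :
    mixedEmbedding.norm y ≠ 0 :=
  mixedEmbedding.norm_ne_zero_iff.mpr fun w ↦ (cone_perturb hx h hθ0 hθ hy w).1.ne'

lemma cone_perturb_log_norm {x y : mixedSpace E} {c θ : ℝ} (hx : mixedEmbedding.norm x ≠ 0)
    (h : ∀ w : InfinitePlace E, c * ‖x‖ ≤ normAtPlace w x)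
    (hθ0 : 0 ≤ θ) (hθ : θ ≤ 1 / 2) (hy : ‖y - x‖ ≤ θ * (c * ‖x‖)) :
    |Real.log (mixedEmbedding.norm y) - Real.log (mixedEmbedding.norm x)| ≤ 2 * czDeg E * θ := by
  have hy0 := cone_perturb_norm_ne_zero hx h hθ0 hθ hy
  rw [log_norm_eq_sum hx, log_norm_eq_sum hy0, ← Finset.sum_sub_distrib]
  refine (Finset.abs_sum_le_sum_abs _ _).trans ?_
  have : ∀ w : InfinitePlace E, |(mult w : ℝ) * Real.log (normAtPlace w y) -
      (mult w : ℝ) * Real.log (normAtPlace w x)| ≤ (mult w : ℝ) * (2 * θ) := fun w ↦ by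
    rw [← mul_sub, abs_mul, abs_of_nonneg (by positivity : (0 : ℝ) ≤ (mult w : ℝ))]
    gcongr
    exact (cone_perturb hx h hθ0 hθ hy w).2
  refine (Finset.sum_le_sum fun w _ ↦ this w).trans ?_
  rw [← Finset.sum_mul, sum_mult_real]
  linarith

lemma cone_perturb_czT {x y : mixedSpace E} {c θ : ℝ} (hx : mixedEmbedding.norm x ≠ 0)
    (h : ∀ w : InfinitePlace E, c * ‖x‖ ≤ normAtPlace w x)
    (hθ0 : 0 ≤ θ) (hθ : θ ≤ 1 / 2) (hy : ‖y - x‖ ≤ θ * (c * ‖x‖)) (w : InfinitePlace E) :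
    |czT y w - czT x w| ≤ 4 * θ := by
  have h1 := (cone_perturb hx h hθ0 hθ hy w).2
  have h2 := cone_perturb_log_norm hx h hθ0 hθ hy
  unfold czT
  have hd := czDeg_pos (E := E)
  have h3 : |(Real.log (mixedEmbedding.norm y) - Real.log (mixedEmbedding.norm x)) * (czDeg E)⁻¹|
      ≤ 2 * θ := by
    rw [abs_mul, abs_of_pos (inv_pos.mpr hd), ← div_eq_mul_inv, div_le_iff₀ hd]
    linarith
  have h4 : Real.log (normAtPlace w y) - Real.log (mixedEmbedding.norm y) * (czDeg E)⁻¹ -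
      (Real.log (normAtPlace w x) - Real.log (mixedEmbedding.norm x) * (czDeg E)⁻¹) =
      (Real.log (normAtPlace w y) - Real.log (normAtPlace w x)) -
      (Real.log (mixedEmbedding.norm y) - Real.log (mixedEmbedding.norm x)) * (czDeg E)⁻¹ := by
    ring
  rw [h4]
  calc _ ≤ |Real.log (normAtPlace w y) - Real.log (normAtPlace w x)| +
      |(Real.log (mixedEmbedding.norm y) - Real.log (mixedEmbedding.norm x)) * (czDeg E)⁻¹| :=
        abs_sub _ _
    _ ≤ 2 * θ + 2 * θ := add_le_add h1 h3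
    _ = 4 * θ := by ring

lemma cone_perturb_logMap {x y : mixedSpace E} {c θ : ℝ} (hx : mixedEmbedding.norm x ≠ 0)
    (h : ∀ w : InfinitePlace E, c * ‖x‖ ≤ normAtPlace w x)
    (hθ0 : 0 ≤ θ) (hθ : θ ≤ 1 / 2) (hy : ‖y - x‖ ≤ θ * (c * ‖x‖)) :
    ‖logMap y - logMap x‖ ≤ 8 * θ := by
  rw [pi_norm_le_iff_of_nonneg (by positivity)]
  intro v
  rw [Pi.sub_apply, logMap_eq_mult_czT, logMap_eq_mult_czT, ← mul_sub, Real.norm_eq_abs, abs_mul,
    abs_of_nonneg (by positivity : (0 : ℝ) ≤ (mult v.1 : ℝ))]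
  have h1 := cone_perturb_czT hx h hθ0 hθ hy v.1
  have h2 := mult_real_le_two v.1
  have h3 := one_le_mult_real v.1
  nlinarith [abs_nonneg (czT y v.1 - czT x v.1)]


/-- The hypotheses on the cut-off function `φ0` on the logarithmic space. -/
structure CZBump (φ0 : logSpace E → ℝ) (L R0 : ℝ) : Prop where
  nonneg : ∀ y, 0 ≤ φ0 y
  le_one : ∀ y, φ0 y ≤ 1
  lip : ∀ y z, |φ0 y - φ0 z| ≤ L * ‖y - z‖
  supp : ∀ y, R0 ≤ ‖y‖ → φ0 y = 0
  L_nonneg : 0 ≤ L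
  R0_nonneg : 0 ≤ R0

lemma czF_of_norm_eq_zero (φ0 : logSpace E → ℝ) (s : ℝ) {x : mixedSpace E}
    (hx : mixedEmbedding.norm x = 0) : czF E φ0 s x = 0 := by
  unfold czF; rw [if_pos hx]

lemma czF_of_norm_ne_zero (φ0 : logSpace E → ℝ) (s : ℝ) {x : mixedSpace E}
    (hx : mixedEmbedding.norm x ≠ 0) :
    czF E φ0 s x = φ0 (logMap x) * (mixedEmbedding.norm x) ^ (-s) := by
  unfold czF; rw [if_neg hx]

lemma czF_nonneg {φ0 : logSpace E → ℝ} {L R0 : ℝ} (hφ : CZBump φ0 L R0) (s : ℝ)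
    (x : mixedSpace E) : 0 ≤ czF E φ0 s x := by
  unfold czF
  split_ifs
  · exact le_rfl
  · exact mul_nonneg (hφ.nonneg _) (Real.rpow_nonneg (mixedEmbedding.norm_nonneg _) _)

lemma czF_le_rpow {φ0 : logSpace E → ℝ} {L R0 : ℝ} (hφ : CZBump φ0 L R0) (s : ℝ)
    (x : mixedSpace E) : czF E φ0 s x ≤ (mixedEmbedding.norm x) ^ (-s) := by
  unfold czF
  split_ifs
  · exact Real.rpow_nonneg (mixedEmbedding.norm_nonneg _) _
  · exact mul_le_of_le_one_left (Real.rpow_nonneg (mixedEmbedding.norm_nonneg _) _) (hφ.le_one _)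

lemma czF_le_one {φ0 : logSpace E → ℝ} {L R0 : ℝ} (hφ : CZBump φ0 L R0) {s : ℝ} (hs : 0 ≤ s)
    {x : mixedSpace E} (hx : mixedEmbedding.norm x = 0 ∨ 1 ≤ mixedEmbedding.norm x) :
    czF E φ0 s x ≤ 1 := by
  rcases hx with hx | hx
  · rw [czF_of_norm_eq_zero _ _ hx]; exact zero_le_one
  · refine (czF_le_rpow hφ s x).trans ?_
    exact Real.rpow_le_one_of_one_le_of_nonpos hx (by linarith)

lemma czF_eq_zero_of_le_norm_logMap {φ0 : logSpace E → ℝ} {L R0 : ℝ} (hφ : CZBump φ0 L R0) (s : ℝ)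
    {x : mixedSpace E} (hx : R0 ≤ ‖logMap x‖) : czF E φ0 s x = 0 := by
  unfold czF
  split_ifs
  · rfl
  · rw [hφ.supp _ hx, zero_mul]

/-- **Estimate in the cone.** -/
lemma czF_sub_le_of_cone {φ0 : logSpace E → ℝ} {L R0 : ℝ} (hφ : CZBump φ0 L R0)
    {s : ℝ} (hs1 : 1 ≤ s) (hs2 : s ≤ 2) {x y : mixedSpace E} {c θ : ℝ}
    (hx : mixedEmbedding.norm x ≠ 0) (h : ∀ w : InfinitePlace E, c * ‖x‖ ≤ normAtPlace w x)
    (hθ0 : 0 ≤ θ) (hθ : 4 * czDeg E * θ ≤ 1) (hy : ‖y - x‖ ≤ θ * (c * ‖x‖)) :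
    |czF E φ0 s y - czF E φ0 s x| ≤
      (24 * L + 8 * czDeg E) * θ * (mixedEmbedding.norm x) ^ (-s) := by
  have hd := czDeg_pos (E := E)
  have hd1 : (1 : ℝ) ≤ czDeg E := by
    unfold czDeg
    exact_mod_cast (finrank_pos : 0 < finrank ℚ E)
  have hθ' : θ ≤ 1 / 2 := by nlinarith
  have hy0 := cone_perturb_norm_ne_zero hx h hθ0 hθ' hy
  have hNx : 0 < mixedEmbedding.norm x := lt_of_le_of_ne (mixedEmbedding.norm_nonneg _) hx.symm
  have hNy : 0 < mixedEmbedding.norm y := lt_of_le_of_ne (mixedEmbedding.norm_nonneg _) hy0.symm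
  rw [czF_of_norm_ne_zero _ _ hx, czF_of_norm_ne_zero _ _ hy0]
  set Nx := (mixedEmbedding.norm x) ^ (-s) with hNxdef
  set Ny := (mixedEmbedding.norm y) ^ (-s) with hNydef
  have hNx0 : 0 ≤ Nx := Real.rpow_nonneg hNx.le _
  have hΔ := cone_perturb_log_norm hx h hθ0 hθ' hy
  set Δ := Real.log (mixedEmbedding.norm y) - Real.log (mixedEmbedding.norm x) with hΔdef
  have hNyx : Ny = Nx * Real.exp (-s * Δ) := by
    rw [hNxdef, hNydef, Real.rpow_def_of_pos hNx, Real.rpow_def_of_pos hNy, ← Real.exp_add]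
    congr 1
    rw [hΔdef]; ring
  have hsΔ : |(-s) * Δ| ≤ 4 * czDeg E * θ := by
    rw [abs_mul, abs_neg, abs_of_nonneg (by linarith : (0 : ℝ) ≤ s)]
    calc s * |Δ| ≤ 2 * (2 * czDeg E * θ) := by
          apply mul_le_mul hs2 hΔ (abs_nonneg _) (by norm_num)
      _ = 4 * czDeg E * θ := by ring
  have hexp : |Real.exp (-s * Δ) - 1| ≤ 2 * (4 * czDeg E * θ) := by
    refine (Real.abs_exp_sub_one_le (hsΔ.trans hθ)).trans ?_
    gcongr
  have hNdiff : |Ny - Nx| ≤ 8 * czDeg E * θ * Nx := by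
    rw [hNyx]
    have : Nx * Real.exp (-s * Δ) - Nx = Nx * (Real.exp (-s * Δ) - 1) := by ring
    rw [this, abs_mul, abs_of_nonneg hNx0]
    calc Nx * |Real.exp (-s * Δ) - 1| ≤ Nx * (2 * (4 * czDeg E * θ)) := by gcongr
      _ = 8 * czDeg E * θ * Nx := by ring
  have hNy3 : Ny ≤ 3 * Nx := by
    have := (abs_le.mp hNdiff).2
    nlinarith
  have hNy0 : 0 ≤ Ny := Real.rpow_nonneg hNy.le _
  have hφdiff : |φ0 (logMap y) - φ0 (logMap x)| ≤ L * (8 * θ) :=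
    (hφ.lip _ _).trans (mul_le_mul_of_nonneg_left (cone_perturb_logMap hx h hθ0 hθ' hy)
      hφ.L_nonneg)
  have hsplit : φ0 (logMap y) * Ny - φ0 (logMap x) * Nx =
      (φ0 (logMap y) - φ0 (logMap x)) * Ny + φ0 (logMap x) * (Ny - Nx) := by ring
  rw [hsplit]
  calc |(φ0 (logMap y) - φ0 (logMap x)) * Ny + φ0 (logMap x) * (Ny - Nx)|
      ≤ |(φ0 (logMap y) - φ0 (logMap x)) * Ny| + |φ0 (logMap x) * (Ny - Nx)| := abs_add_le _ _
    _ = |φ0 (logMap y) - φ0 (logMap x)| * Ny + φ0 (logMap x) * |Ny - Nx| := by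
        rw [abs_mul, abs_mul, abs_of_nonneg hNy0, abs_of_nonneg (hφ.nonneg _)]
    _ ≤ L * (8 * θ) * (3 * Nx) + 1 * (8 * czDeg E * θ * Nx) := by
        apply add_le_add
        · exact mul_le_mul hφdiff hNy3 hNy0 (by have := hφ.L_nonneg; positivity)
        · exact mul_le_mul (hφ.le_one _) hNdiff (abs_nonneg _) zero_le_one
    _ = (24 * L + 8 * czDeg E) * θ * Nx := by ring


/-- Cone case of (U4), in a form symmetric enough to be used at `x` and at `x + ρ`. -/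
lemma czF_sub_le_cone_aux {φ0 : logSpace E → ℝ} {L R0 : ℝ} (hφ : CZBump φ0 L R0)
    {s : ℝ} (hs1 : 1 ≤ s) (hs2 : s ≤ 2) {x y : mixedSpace E}
    (hx1 : 1 ≤ mixedEmbedding.norm x) (hlog : ‖logMap x‖ ≤ R0)
    (hθ : 4 * czDeg E * ‖y - x‖ ≤ czCone E R0 * ‖x‖) :
    |czF E φ0 s y - czF E φ0 s x| ≤
      (24 * L + 8 * czDeg E) * ‖y - x‖ * ((czCone E R0) ^ (finrank ℚ E + 1))⁻¹ *
        (‖x‖ ^ (finrank ℚ E + 1))⁻¹ := by
  have hx : mixedEmbedding.norm x ≠ 0 := by linarith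
  have hx0 : x ≠ 0 := fun h ↦ hx (by rw [h, map_zero])
  have hxpos : 0 < ‖x‖ := norm_pos_iff.mpr hx0
  have hc := czCone_pos (E := E) R0
  have hd := czDeg_pos (E := E)
  have hcx : 0 < czCone E R0 * ‖x‖ := mul_pos hc hxpos
  have hcone := czCone_mul_norm_le hx hlog
  set θ := ‖y - x‖ / (czCone E R0 * ‖x‖) with hθdef
  have hθ0 : 0 ≤ θ := div_nonneg (norm_nonneg _) hcx.le
  have hθmul : θ * (czCone E R0 * ‖x‖) = ‖y - x‖ := div_mul_cancel₀ _ hcx.ne'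
  have hθ1 : 4 * czDeg E * θ ≤ 1 := by
    rw [hθdef, ← mul_div_assoc, div_le_one hcx]
    exact hθ
  have h1 := czF_sub_le_of_cone hφ hs1 hs2 hx hcone hθ0 hθ1 hθmul.ge
  have hA : 0 ≤ 24 * L + 8 * czDeg E := by
    have := hφ.L_nonneg
    positivity
  have h2 : (mixedEmbedding.norm x) ^ (-s) ≤ ((czCone E R0 * ‖x‖) ^ (finrank ℚ E))⁻¹ := by
    calc (mixedEmbedding.norm x) ^ (-s) ≤ (mixedEmbedding.norm x) ^ (-1 : ℝ) :=
          Real.rpow_le_rpow_of_exponent_le hx1 (by linarith)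
      _ = (mixedEmbedding.norm x)⁻¹ := Real.rpow_neg_one _
      _ ≤ ((czCone E R0 * ‖x‖) ^ (finrank ℚ E))⁻¹ :=
          inv_anti₀ (by positivity) (pow_le_norm_of_cone hc.le hcone)
  calc |czF E φ0 s y - czF E φ0 s x|
      ≤ (24 * L + 8 * czDeg E) * θ * (mixedEmbedding.norm x) ^ (-s) := h1
    _ ≤ (24 * L + 8 * czDeg E) * θ * ((czCone E R0 * ‖x‖) ^ (finrank ℚ E))⁻¹ := by
        gcongr
    _ = (24 * L + 8 * czDeg E) * ‖y - x‖ * ((czCone E R0) ^ (finrank ℚ E + 1))⁻¹ *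
        (‖x‖ ^ (finrank ℚ E + 1))⁻¹ := by
        rw [hθdef, mul_pow, pow_succ, pow_succ]
        field_simp

/-! ### Real-number bookkeeping for (U4) -/

lemma u4_real_trivial {R A r X : ℝ} (n : ℕ) (hR : 0 < R) (hA : 0 ≤ A) (hr : 0 ≤ r)
    (hX : 0 < X) (hsmall : X < R * (1 + r)) :
    (1 : ℝ) ≤ (R ^ n + A) * (1 + r) ^ n * (X ^ n)⁻¹ := by
  have hxn : 0 < (X ^ n)⁻¹ := by positivity
  have h2 : (1 : ℝ) ≤ (R * (1 + r)) ^ n * (X ^ n)⁻¹ := by
    rw [← div_eq_mul_inv, ← div_pow]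
    apply one_le_pow₀
    rw [le_div_iff₀ hX]
    linarith
  have h3 : R ^ n * (1 + r) ^ n * (X ^ n)⁻¹ ≤ (R ^ n + A) * (1 + r) ^ n * (X ^ n)⁻¹ := by
    apply mul_le_mul_of_nonneg_right _ hxn.le
    apply mul_le_mul_of_nonneg_right _ (by positivity)
    linarith
  calc (1 : ℝ) ≤ (R * (1 + r)) ^ n * (X ^ n)⁻¹ := h2
    _ = R ^ n * (1 + r) ^ n * (X ^ n)⁻¹ := by rw [mul_pow]
    _ ≤ (R ^ n + A) * (1 + r) ^ n * (X ^ n)⁻¹ := h3

lemma u4_real_finish {R A r X B : ℝ} {n : ℕ} (hn : 1 ≤ n) (hR : 0 < R) (hA : 0 ≤ A)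
    (hr : 0 ≤ r) (hX : 0 < X) (hB : B ≤ A * r * (X ^ n)⁻¹) :
    B ≤ (R ^ n + A) * (1 + r) ^ n * (X ^ n)⁻¹ := by
  have hxn : 0 < (X ^ n)⁻¹ := by positivity
  have hρ1 : (1 : ℝ) ≤ 1 + r := by linarith
  refine hB.trans ?_
  have h1 : r ≤ (1 + r) ^ n :=
    (by linarith : r ≤ 1 + r).trans (le_self_pow₀ hρ1 (by omega))
  have h2 : A * r ≤ (R ^ n + A) * (1 + r) ^ n := by
    have h3 : A * r ≤ A * (1 + r) ^ n := mul_le_mul_of_nonneg_left h1 hA
    have h4 : 0 ≤ R ^ n * (1 + r) ^ n := by positivity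
    have h5 : (R ^ n + A) * (1 + r) ^ n = R ^ n * (1 + r) ^ n + A * (1 + r) ^ n := by
      ring
    rw [h5]
    linarith
  exact mul_le_mul_of_nonneg_right h2 hxn.le

lemma u4_real_cone_x {A0 c r X : ℝ} (n : ℕ) (hA0 : 0 ≤ A0) (hc : 0 < c) (hr : 0 ≤ r)
    (hX : 0 < X) :
    A0 * r * (c ^ n)⁻¹ * (X ^ n)⁻¹ ≤ (A0 * 2 ^ n * (c ^ n)⁻¹) * r * (X ^ n)⁻¹ := by
  have hxn : 0 < (X ^ n)⁻¹ := by positivity
  have h2n : (1 : ℝ) ≤ 2 ^ n := one_le_pow₀ (by norm_num)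
  have h4 : 0 ≤ A0 * r * (c ^ n)⁻¹ := by positivity
  have h2 : A0 * r * (c ^ n)⁻¹ ≤ (A0 * 2 ^ n * (c ^ n)⁻¹) * r := by
    calc A0 * r * (c ^ n)⁻¹
        ≤ A0 * r * (c ^ n)⁻¹ * 2 ^ n := le_mul_of_one_le_right h4 h2n
      _ = A0 * 2 ^ n * (c ^ n)⁻¹ * r := by ring
  exact mul_le_mul_of_nonneg_right h2 hxn.le

lemma u4_real_cone_y {A0 c r X Y : ℝ} (n : ℕ) (hA0 : 0 ≤ A0) (hc : 0 < c) (hr : 0 ≤ r)
    (hX : 0 < X) (hY : 0 < Y) (hXY : X ≤ 2 * Y) :
    A0 * r * (c ^ n)⁻¹ * (Y ^ n)⁻¹ ≤ (A0 * 2 ^ n * (c ^ n)⁻¹) * r * (X ^ n)⁻¹ := by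
  have h5 : (Y ^ n)⁻¹ ≤ 2 ^ n * (X ^ n)⁻¹ := by
    have h6 : X ^ n ≤ 2 ^ n * Y ^ n := by
      rw [← mul_pow]
      exact pow_le_pow_left₀ hX.le hXY n
    have h7 : 0 < Y ^ n := pow_pos hY n
    have h8 : 0 < X ^ n := pow_pos hX n
    rw [inv_le_iff_one_le_mul₀ h7]
    have h9 : 2 ^ n * (X ^ n)⁻¹ * Y ^ n = (2 ^ n * Y ^ n) * (X ^ n)⁻¹ := by
      ring
    rw [h9, ← div_eq_mul_inv, le_div_iff₀ h8, one_mul]
    exact h6
  have h6 : 0 ≤ A0 * r * (c ^ n)⁻¹ := by positivity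
  calc A0 * r * (c ^ n)⁻¹ * (Y ^ n)⁻¹
      ≤ A0 * r * (c ^ n)⁻¹ * (2 ^ n * (X ^ n)⁻¹) := mul_le_mul_of_nonneg_left h5 h6
    _ = (A0 * 2 ^ n * (c ^ n)⁻¹) * r * (X ^ n)⁻¹ := by ring

lemma u4_real_theta {c D R r X : ℝ} (hc : 0 < c) (hD : 0 < D) (hr : 0 ≤ r)
    (hcR : c * R = 8 * D) (hbig : R * (1 + r) ≤ X) :
    R * r ≤ X ∧ 4 * D * r ≤ c * X ∧ (8 ≤ R → ∀ Y : ℝ, X ≤ Y + r → X ≤ 2 * Y ∧ 4 * D * r ≤ c * Y) := by
  have hRpos : 0 < R := by
    by_contra h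
    rw [not_lt] at h
    have : c * R ≤ 0 := mul_nonpos_of_nonneg_of_nonpos hc.le h
    linarith
  have hρx : R * r ≤ X := by
    have h13 : R * (1 + r) = R + R * r := by ring
    rw [h13] at hbig
    linarith
  have h7 : c * (R * r) ≤ c * X := mul_le_mul_of_nonneg_left hρx hc.le
  have h8 : c * (R * r) = 2 * (4 * D * r) := by rw [← mul_assoc, hcR]; ring
  rw [h8] at h7
  have h12 : 0 ≤ 4 * D * r := by positivity
  refine ⟨hρx, by linarith, fun hR8 Y hXY ↦ ?_⟩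
  have h8ρ : 8 * r ≤ R * r := mul_le_mul_of_nonneg_right hR8 hr
  have hxy : X ≤ 2 * Y := by linarith
  refine ⟨hxy, ?_⟩
  have h9 : c * X ≤ c * (2 * Y) := mul_le_mul_of_nonneg_left hxy hc.le
  have h10 : c * (2 * Y) = 2 * (c * Y) := by ring
  rw [h10] at h9
  linarith

/-- **(U4)** the pointwise estimate: for points `x ≠ 0`, `x + ρ` at which the norm is `0` or
`≥ 1` (e.g. points of the lattice of an integral ideal), uniformly in `s ∈ [1, 2]`. -/
theorem czF_sub_le {φ0 : logSpace E → ℝ} {L R0 : ℝ} (hφ : CZBump φ0 L R0) :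
    ∃ C : ℝ, 0 ≤ C ∧ ∀ s : ℝ, 1 ≤ s → s ≤ 2 → ∀ x ρ : mixedSpace E, x ≠ 0 →
      (mixedEmbedding.norm x = 0 ∨ 1 ≤ mixedEmbedding.norm x) →
      (mixedEmbedding.norm (x + ρ) = 0 ∨ 1 ≤ mixedEmbedding.norm (x + ρ)) →
      |czF E φ0 s (x + ρ) - czF E φ0 s x| ≤
        C * (1 + ‖ρ‖) ^ (finrank ℚ E + 1) * (‖x‖ ^ (finrank ℚ E + 1))⁻¹ := by
  have hc := czCone_pos (E := E) R0
  have hd := czDeg_pos (E := E)
  have hA' : 0 ≤ 24 * L + 8 * czDeg E := by
    have := hφ.L_nonneg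
    positivity
  have hd1 : (1 : ℝ) ≤ czDeg E := by
    unfold czDeg
    exact_mod_cast (finrank_pos : 0 < finrank ℚ E)
  have hc1 := czCone_le_one (E := E) hφ.R0_nonneg
  have haux := fun (s : ℝ) (hs1 : 1 ≤ s) (hs2 : s ≤ 2) (x y : mixedSpace E) =>
    czF_sub_le_cone_aux (x := x) (y := y) hφ hs1 hs2
  obtain ⟨n, hn⟩ : ∃ n : ℕ, n = finrank ℚ E + 1 := ⟨_, rfl⟩
  obtain ⟨c, hcdef⟩ : ∃ c : ℝ, c = czCone E R0 := ⟨_, rfl⟩
  obtain ⟨D, hDdef⟩ : ∃ D : ℝ, D = czDeg E := ⟨_, rfl⟩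
  rw [← hn]
  rw [← hcdef, ← hn, ← hDdef] at haux
  rw [← hcdef] at hc hc1
  rw [← hDdef] at hd hd1 hA'
  obtain ⟨A0, hA0def⟩ : ∃ A0 : ℝ, A0 = 24 * L + 8 * D := ⟨_, rfl⟩
  rw [← hA0def] at haux hA'
  have hn1 : 1 ≤ n := by omega
  clear hn hcdef hDdef hA0def
  have hRpos : 0 < 8 * D / c := by positivity
  have hcR : c * (8 * D / c) = 8 * D := by field_simp
  have hR8 : 8 ≤ 8 * D / c := by
    rw [le_div_iff₀ hc]
    nlinarith
  have hA0 : 0 ≤ A0 * 2 ^ n * (c ^ n)⁻¹ := by positivity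
  refine ⟨(8 * D / c) ^ n + A0 * 2 ^ n * (c ^ n)⁻¹, by positivity, ?_⟩
  intro s hs1 hs2 x ρ hx0 hNx hNxρ
  have hxpos : 0 < ‖x‖ := norm_pos_iff.mpr hx0
  have hρ0 : 0 ≤ ‖ρ‖ := norm_nonneg ρ
  have htri : ‖x‖ ≤ ‖x + ρ‖ + ‖ρ‖ := by
    have := norm_sub_le (x + ρ) ρ
    rwa [add_sub_cancel_right] at this
  have h0x := czF_nonneg hφ s x
  have h0y := czF_nonneg hφ s (x + ρ)
  have h1x := czF_le_one hφ (by linarith : (0 : ℝ) ≤ s) hNx
  have h1y := czF_le_one hφ (by linarith : (0 : ℝ) ≤ s) hNxρ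
  have hFx : ¬ (1 ≤ mixedEmbedding.norm x ∧ ‖logMap x‖ ≤ R0) → czF E φ0 s x = 0 := by
    intro hxc
    rcases hNx with h | h
    · exact czF_of_norm_eq_zero _ _ h
    · refine czF_eq_zero_of_le_norm_logMap hφ s ?_
      by_contra hcon
      exact hxc ⟨h, (not_le.mp hcon).le⟩
  have hFy : ¬ (1 ≤ mixedEmbedding.norm (x + ρ) ∧ ‖logMap (x + ρ)‖ ≤ R0) →
      czF E φ0 s (x + ρ) = 0 := by
    intro hyc
    rcases hNxρ with h | h
    · exact czF_of_norm_eq_zero _ _ h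
    · refine czF_eq_zero_of_le_norm_logMap hφ s ?_
      by_contra hcon
      exact hyc ⟨h, (not_le.mp hcon).le⟩
  have hauxx := haux s hs1 hs2 x (x + ρ)
  have hauxy := haux s hs1 hs2 (x + ρ) x
  rw [add_sub_cancel_left] at hauxx
  rw [sub_add_cancel_left, norm_neg, abs_sub_comm] at hauxy
  clear haux
  generalize czF E φ0 s (x + ρ) = Fy at *
  generalize czF E φ0 s x = Fx at *
  generalize ‖x + ρ‖ = Y at *
  generalize ‖x‖ = X at *
  generalize ‖ρ‖ = r at *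
  by_cases hsmall : X < 8 * D / c * (1 + r)
  · have h1 : |Fy - Fx| ≤ 1 := by
      rw [abs_le]; constructor <;> linarith
    exact h1.trans (u4_real_trivial n hRpos hA0 hρ0 hxpos hsmall)
  · rw [not_lt] at hsmall
    obtain ⟨hρx, hθx, hθy⟩ := u4_real_theta hc hd hρ0 hcR hsmall
    by_cases hxc : 1 ≤ mixedEmbedding.norm x ∧ ‖logMap x‖ ≤ R0
    · have h1 := hauxx hxc.1 hxc.2 hθx
      exact u4_real_finish hn1 hRpos hA0 hρ0 hxpos
        (h1.trans (u4_real_cone_x n hA' hc hρ0 hxpos))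
    · by_cases hyc : 1 ≤ mixedEmbedding.norm (x + ρ) ∧ ‖logMap (x + ρ)‖ ≤ R0
      · obtain ⟨hxy, hθ⟩ := hθy hR8 Y htri
        have hY : 0 < Y := by linarith
        have h1 := hauxy hyc.1 hyc.2 hθ
        exact u4_real_finish hn1 hRpos hA0 hρ0 hxpos
          (h1.trans (u4_real_cone_y n hA' hc hρ0 hxpos hY hxy))
      · rw [hFx hxc, hFy hyc, sub_zero, abs_zero]
        positivity

end Fermat.Agent.S14CZ
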