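import Mathlib
import Fermat.Agent.S14.ClassZeta.Defs
import Fermat.Agent.S14.CZ.Pointwise
import Fermat.Agent.S14.CZ.Compare

/-!
# S14, analytic route: comparison of the smoothed sums over an ideal and over a sub-ideal (U5)
-/

set_option autoImplicit false

open NumberField NumberField.InfinitePlace NumberField.mixedEmbedding NumberField.Units
  NumberField.Units.dirichletUnitTheorem Module

namespace Fermat.Agent.S14CZ

open Fermat.Agent.S14 (czF classZeta cutoff)

open scoped Classical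

set_option linter.unusedSectionVars false

variable {E : Type*} [Field E] [NumberField E]

/-- The embedding of the ring of integers in the mixed space. -/
noncomputable def czIota (E : Type*) [Field E] [NumberField E] (a : 𝓞 E) : mixedSpace E :=
  mixedEmbedding E (a : E)

lemma czIota_add (a b : 𝓞 E) : czIota E (a + b) = czIota E a + czIota E b := by
  unfold czIota
  rw [RingOfIntegers.coe_eq_algebraMap, RingOfIntegers.coe_eq_algebraMap,
    RingOfIntegers.coe_eq_algebraMap, map_add, map_add]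

lemma czIota_zero : czIota E 0 = 0 := by
  unfold czIota
  rw [RingOfIntegers.coe_eq_algebraMap, map_zero, map_zero]

lemma czIota_injective : Function.Injective (czIota E) :=
  (mixedEmbedding_injective E).comp RingOfIntegers.coe_injective

lemma czIota_eq_zero_iff {a : 𝓞 E} : czIota E a = 0 ↔ a = 0 := by
  rw [← czIota_zero (E := E)]
  exact czIota_injective.eq_iff

lemma czIota_mem_integerLattice (a : 𝓞 E) : czIota E a ∈ mixedEmbedding.integerLattice E :=
  ⟨a, rfl⟩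

/-- The norm of a lattice point is `0` or at least `1`. -/
lemma czIota_norm (a : 𝓞 E) :
    mixedEmbedding.norm (czIota E a) = 0 ∨ 1 ≤ mixedEmbedding.norm (czIota E a) := by
  unfold czIota
  rw [mixedEmbedding.norm_eq_norm, ← Algebra.coe_norm_int]
  by_cases h : Algebra.norm ℤ a = 0
  · left; simp [h]
  · right
    have h1 : (1 : ℤ) ≤ |Algebra.norm ℤ a| := Int.one_le_abs h
    have h2 : ((1 : ℤ) : ℝ) ≤ ((|Algebra.norm ℤ a| : ℤ) : ℝ) := Int.cast_le.mpr h1
    simpa using h2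

/-- Summability of `‖x‖ ^ (-(d+1))` over the lattice points. -/
lemma summable_czIota_inv_pow :
    Summable fun a : 𝓞 E ↦ (‖czIota E a‖ ^ (finrank ℚ E + 1))⁻¹ := by
  have hrank : finrank ℤ (mixedEmbedding.integerLattice E) < finrank ℚ E + 1 := by
    rw [ZLattice.rank ℝ, mixedEmbedding.finrank]
    exact Nat.lt_succ_self _
  have h := ZLattice.summable_norm_pow_inv (L := mixedEmbedding.integerLattice E)
    (finrank ℚ E + 1) hrank
  have hinj : Function.Injective
      (fun a : 𝓞 E ↦ (⟨czIota E a, czIota_mem_integerLattice a⟩ :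
        mixedEmbedding.integerLattice E)) := by
    intro a b hab
    exact czIota_injective (Subtype.ext_iff.mp hab)
  refine (h.comp_injective hinj).congr fun a ↦ ?_
  simp only [Function.comp_apply, inv_pow]
  rfl


/-- The term of the smoothed lattice sum. -/
noncomputable def czTerm (φ0 : logSpace E → ℝ) (s : ℝ) (a : 𝓞 E) : ℝ :=
  czF E φ0 s (czIota E a)

lemma czTerm_zero (φ0 : logSpace E → ℝ) (s : ℝ) : czTerm φ0 s (0 : 𝓞 E) = 0 := by
  unfold czTerm
  rw [czIota_zero]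
  exact czF_of_norm_eq_zero _ _ (map_zero _)

lemma czTerm_nonneg {φ0 : logSpace E → ℝ} {L R0 : ℝ} (hφ : CZBump φ0 L R0) (s : ℝ) (a : 𝓞 E) :
    0 ≤ czTerm φ0 s a := czF_nonneg hφ s _

lemma czTerm_le_one {φ0 : logSpace E → ℝ} {L R0 : ℝ} (hφ : CZBump φ0 L R0) {s : ℝ}
    (hs : 0 ≤ s) (a : 𝓞 E) : czTerm φ0 s a ≤ 1 := czF_le_one hφ hs (czIota_norm a)

/-- The majorant on the sublattice. -/
noncomputable def czMaj (E : Type*) [Field E] [NumberField E] (a : 𝓞 E) : ℝ :=
  (if a = 0 then 1 else 0) + (‖czIota E a‖ ^ (finrank ℚ E + 1))⁻¹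

lemma summable_czMaj : Summable (czMaj E) := by
  unfold czMaj
  refine Summable.add ?_ summable_czIota_inv_pow
  refine summable_of_ne_finset_zero (s := {0}) fun a ha ↦ ?_
  rw [Finset.mem_singleton] at ha
  rw [if_neg ha]

/-- **Pointwise comparison on lattice points.** -/
lemma czTerm_sub_le {φ0 : logSpace E → ℝ} {L R0 : ℝ} (hφ : CZBump φ0 L R0) :
    ∃ C : ℝ, 0 ≤ C ∧ ∀ s : ℝ, 1 ≤ s → s ≤ 2 → ∀ ρ a : 𝓞 E,
      |czTerm φ0 s (ρ + a) - czTerm φ0 s a| ≤
        (1 + C * (1 + ‖czIota E ρ‖) ^ (finrank ℚ E + 1)) * czMaj E a := by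
  obtain ⟨C, hC0, hC⟩ := czF_sub_le (E := E) hφ
  refine ⟨C, hC0, fun s hs1 hs2 ρ a ↦ ?_⟩
  have hK : 0 ≤ C * (1 + ‖czIota E ρ‖) ^ (finrank ℚ E + 1) := by positivity
  by_cases ha : a = 0
  · subst ha
    rw [add_zero, czTerm_zero, sub_zero, abs_of_nonneg (czTerm_nonneg hφ s ρ)]
    unfold czMaj
    rw [if_pos rfl]
    have h1 := czTerm_le_one hφ (by linarith : (0 : ℝ) ≤ s) ρ
    have h2 : 0 ≤ (‖czIota E (0 : 𝓞 E)‖ ^ (finrank ℚ E + 1))⁻¹ := by positivity
    nlinarith
  · have hx0 : czIota E a ≠ 0 := fun h ↦ ha (czIota_eq_zero_iff.mp h)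
    have h1 := hC s hs1 hs2 (czIota E a) (czIota E ρ) hx0 (czIota_norm a)
      (by rw [← czIota_add]; exact czIota_norm _)
    unfold czTerm
    rw [add_comm ρ a, czIota_add]
    refine h1.trans ?_
    unfold czMaj
    rw [if_neg ha, zero_add]
    have h2 : 0 ≤ (‖czIota E a‖ ^ (finrank ℚ E + 1))⁻¹ := by positivity
    nlinarith


/-- The smoothed sum over the elements of an ideal. -/
noncomputable def czSum (φ0 : logSpace E → ℝ) (s : ℝ) (J : Ideal (𝓞 E)) : ℝ :=
  ∑' γ : J, czTerm φ0 s (γ : 𝓞 E)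

/-- **(U5)** comparison of the smoothed sums over an ideal `J` and a sub-ideal `J'`:
`∑_J F_s - [J : J'] ∑_{J'} F_s` is bounded on `[1, 2]` (where the sums converge). -/
theorem czSum_compare {φ0 : logSpace E → ℝ} {L R0 : ℝ} (hφ : CZBump φ0 L R0)
    (J J' : Ideal (𝓞 E)) (hJ' : J' ≠ ⊥) (hle : J' ≤ J) :
    ∃ B : ℝ, ∀ s : ℝ, 1 ≤ s → s ≤ 2 → Summable (fun γ : J ↦ czTerm φ0 s (γ : 𝓞 E)) →
      |czSum φ0 s J - (J'.toAddSubgroup.relIndex J.toAddSubgroup : ℝ) * czSum φ0 s J'| ≤ B := by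
  obtain ⟨C, hC0, hC⟩ := czTerm_sub_le (E := E) hφ
  -- the groups
  set K : AddSubgroup (𝓞 E) := J.toAddSubgroup with hKdef
  set H : AddSubgroup K := J'.toAddSubgroup.addSubgroupOf K with hHdef
  have hHK : J'.toAddSubgroup ≤ K := hle
  have hidx : H.index ≠ 0 := by
    intro h0
    have h1 := AddSubgroup.relIndex_mul_index hHK
    rw [AddSubgroup.relIndex, ← hHdef, h0, zero_mul] at h1
    have h2 : Ideal.absNorm J' = 0 := by
      rw [Ideal.absNorm_apply, Submodule.cardQuot_apply]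
      exact h1.symm
    exact hJ' (Ideal.absNorm_eq_zero_iff.mp h2)
  letI : Fintype (K ⧸ H) := AddSubgroup.fintypeOfIndexNeZero hidx
  have hcard : (Fintype.card (K ⧸ H) : ℝ) = (J'.toAddSubgroup.relIndex J.toAddSubgroup : ℝ) := by
    rw [AddSubgroup.relIndex, ← hKdef, ← hHdef, AddSubgroup.index, Nat.card_eq_fintype_card]
  -- the majorant
  have hg : Summable fun h : H ↦ czMaj E ((h : K) : 𝓞 E) := by
    refine (summable_czMaj (E := E)).comp_injective ?_
    intro a b hab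
    exact Subtype.ext (Subtype.ext hab)
  refine ⟨(∑ q : K ⧸ H, (1 + C * (1 + ‖czIota E ((Quotient.out q : K) : 𝓞 E)‖) ^
    (finrank ℚ E + 1))) * ∑' h : H, czMaj E ((h : K) : 𝓞 E), fun s hs1 hs2 hsum ↦ ?_⟩
  have hf : Summable fun a : K ↦ czTerm φ0 s (a : 𝓞 E) := hsum
  have key := abs_tsum_sub_card_mul_tsum_le H (fun a : K ↦ czTerm φ0 s (a : 𝓞 E))
    (fun h : H ↦ czMaj E ((h : K) : 𝓞 E))
    (fun q ↦ 1 + C * (1 + ‖czIota E ((Quotient.out q : K) : 𝓞 E)‖) ^ (finrank ℚ E + 1))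
    hf hg (fun q h ↦ by
      have := hC s hs1 hs2 ((Quotient.out q : K) : 𝓞 E) ((h : K) : 𝓞 E)
      simpa using this)
  rw [hcard] at key
  have e1 : czSum φ0 s J = ∑' a : K, czTerm φ0 s (a : 𝓞 E) := rfl
  have e2 : czSum φ0 s J' = ∑' h : H, czTerm φ0 s ((h : K) : 𝓞 E) := by
    unfold czSum
    let e : H ≃ J' :=
      { toFun := fun h ↦ ⟨((h : K) : 𝓞 E), h.2⟩
        invFun := fun γ ↦ ⟨⟨(γ : 𝓞 E), hle γ.2⟩, γ.2⟩
        left_inv := fun h ↦ rfl
        right_inv := fun γ ↦ rfl }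
    exact (e.tsum_eq (fun γ : J' ↦ czTerm φ0 s (γ : 𝓞 E))).symm
  rw [e1, e2]
  exact key

end Fermat.Agent.S14CZ
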