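import Mathlib
import Fermat.Agent.S14.ClassZeta.Defs
import Fermat.Agent.Lib.FrobDensity.EulerZeta

/-!
# S14, analytic route: `(s - 1) ζ_E(s)` is bounded on `(1, 2]`, and `ζ(s, c) ≤ ζ_E(s)`
-/

set_option autoImplicit false

open NumberField Filter Topology
open scoped nonZeroDivisors

namespace Fermat.Agent.S14CZ

open Fermat.Agent.S14 (classZeta)
open Fermat.Agent.FrobDensity (normWeight zetaSum summable_normWeight normWeight_nonneg
  tendsto_sub_one_mul_zetaSum)

variable (E : Type*) [Field E] [NumberField E]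

lemma normWeight_anti {s t : ℝ} (ht : 0 < t) (hst : t ≤ s) (I : Ideal (𝓞 E)) :
    normWeight E s I ≤ normWeight E t I := by
  unfold normWeight
  by_cases h0 : Ideal.absNorm I = 0
  · rw [h0, Nat.cast_zero, Real.zero_rpow (by linarith), Real.zero_rpow (by linarith)]
  · have h1 : (1 : ℝ) ≤ (Ideal.absNorm I : ℝ) := by
      exact_mod_cast Nat.one_le_iff_ne_zero.mpr h0
    exact Real.rpow_le_rpow_of_exponent_le h1 (by linarith)

lemma zetaSum_anti {s t : ℝ} (ht : 1 < t) (hst : t ≤ s) : zetaSum E s ≤ zetaSum E t := by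
  unfold zetaSum
  exact (summable_normWeight E (lt_of_lt_of_le ht hst)).tsum_le_tsum
    (fun I ↦ normWeight_anti E (by linarith) hst I) (summable_normWeight E ht)

lemma zetaSum_nonneg (s : ℝ) : 0 ≤ zetaSum E s :=
  tsum_nonneg fun I ↦ normWeight_nonneg s I

/-- `(s - 1) ζ_E(s)` is bounded on `(1, 2]`. -/
theorem exists_sub_one_mul_zetaSum_le :
    ∃ M : ℝ, 0 ≤ M ∧ ∀ s : ℝ, 1 < s → s ≤ 2 → (s - 1) * zetaSum E s ≤ M := by
  have h := tendsto_sub_one_mul_zetaSum E
  have hev : ∀ᶠ s in 𝓝[>] (1 : ℝ), (s - 1) * zetaSum E s < dedekindZeta_residue E + 1 :=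
    h.eventually (gt_mem_nhds (by linarith))
  obtain ⟨u, hu1, hu⟩ := (mem_nhdsGT_iff_exists_Ioo_subset).mp hev
  have hu1' : (1 : ℝ) < u := hu1
  set t := (1 + u) / 2 with htdef
  have ht1 : 1 < t := by rw [htdef]; linarith
  have htu : t < u := by rw [htdef]; linarith
  have hκ := dedekindZeta_residue_pos E
  refine ⟨dedekindZeta_residue E + 1 + zetaSum E t, by
    have := zetaSum_nonneg E t
    linarith, fun s hs1 hs2 ↦ ?_⟩
  by_cases hsu : s < u
  · have := hu ⟨hs1, hsu⟩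
    have h2 : (s - 1) * zetaSum E s < dedekindZeta_residue E + 1 := this
    have := zetaSum_nonneg E t
    linarith
  · rw [not_lt] at hsu
    have h1 : zetaSum E s ≤ zetaSum E t := zetaSum_anti E ht1 (by linarith)
    have h2 : (s - 1) * zetaSum E s ≤ 1 * zetaSum E t :=
      mul_le_mul (by linarith) h1 (zetaSum_nonneg E s) zero_le_one
    linarith

/-- The series defining `classZeta` is summable for `s > 1`. -/
lemma summable_classZeta (c : ClassGroup (𝓞 E)) {s : ℝ} (hs : 1 < s) :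
    Summable fun I : {I : (Ideal (𝓞 E))⁰ // ClassGroup.mk0 I = c} ↦
      ((Ideal.absNorm ((I : (Ideal (𝓞 E))⁰) : Ideal (𝓞 E)) : ℕ) : ℝ) ^ (-s) := by
  have hinj : Function.Injective
      (fun I : {I : (Ideal (𝓞 E))⁰ // ClassGroup.mk0 I = c} ↦ ((I : (Ideal (𝓞 E))⁰) : Ideal (𝓞 E))) :=
    fun a b hab ↦ Subtype.ext (Subtype.ext hab)
  exact (summable_normWeight E hs).comp_injective hinj

lemma classZeta_nonneg (c : ClassGroup (𝓞 E)) (s : ℝ) : 0 ≤ classZeta E c s :=
  tsum_nonneg fun _ ↦ Real.rpow_nonneg (Nat.cast_nonneg _) _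

/-- `ζ(s, c) ≤ ζ_E(s)`. -/
lemma classZeta_le_zetaSum (c : ClassGroup (𝓞 E)) {s : ℝ} (hs : 1 < s) :
    classZeta E c s ≤ zetaSum E s := by
  have hinj : Function.Injective
      (fun I : {I : (Ideal (𝓞 E))⁰ // ClassGroup.mk0 I = c} ↦ ((I : (Ideal (𝓞 E))⁰) : Ideal (𝓞 E))) :=
    fun a b hab ↦ Subtype.ext (Subtype.ext hab)
  exact tsum_comp_le_tsum_of_inj (summable_normWeight E hs) (fun I ↦ normWeight_nonneg s I) hinj

end Fermat.Agent.S14CZ
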