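import Mathlib
import Fermat.Agent.S14.ClassZeta.Defs
import Fermat.Agent.S14.CZ.Pointwise
import Fermat.Agent.S14.CZ.LatticeCompare
import Fermat.Agent.S14.CZ.ZetaBound

/-!
# S14, analytic route: assembly (U6)

`CutoffProps` (U2a) and `ClassZetaLatticeSum` (U3) imply `ClassZetaDiffBounded`.
-/

set_option autoImplicit false

open NumberField NumberField.InfinitePlace NumberField.mixedEmbedding NumberField.Units
  NumberField.Units.dirichletUnitTheorem Module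
open scoped nonZeroDivisors

namespace Fermat.Agent.S14CZ

open Fermat.Agent.S14 (czF classZeta cutoff CutoffProps ClassZetaLatticeSum ClassZetaDiffBounded)
open Fermat.Agent.FrobDensity (zetaSum)

open scoped Classical

set_option linter.unusedSectionVars false

/-- (U2a) in the form used by the pointwise estimate. -/
lemma czBump_cutoff (h : CutoffProps) (E : Type) [Field E] [NumberField E] :
    ∃ L R0 : ℝ, CZBump (cutoff E) L R0 := by
  obtain ⟨h1, ⟨L, hL⟩, ⟨R0, hR0⟩⟩ := h E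
  refine ⟨L, max R0 0, ?_⟩
  refine ⟨fun y ↦ (h1 y).1, fun y ↦ (h1 y).2, fun y z ↦ ?_, fun y hy ↦ ?_, L.2, le_max_right _ _⟩
  · have := hL.dist_le_mul y z
    rwa [Real.dist_eq, dist_eq_norm] at this
  · exact hR0 y ((le_max_left _ _).trans hy)

variable {E : Type*} [Field E] [NumberField E]

/-- The index of `J * J₂` in `J` is the norm of `J₂`. -/
lemma relIndex_mul_left (J J₂ : (Ideal (𝓞 E))⁰) :
    ((J : Ideal (𝓞 E)) * (J₂ : Ideal (𝓞 E))).toAddSubgroup.relIndex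
      (J : Ideal (𝓞 E)).toAddSubgroup = Ideal.absNorm (J₂ : Ideal (𝓞 E)) := by
  have hle : ((J : Ideal (𝓞 E)) * (J₂ : Ideal (𝓞 E))).toAddSubgroup ≤
      (J : Ideal (𝓞 E)).toAddSubgroup := fun x hx ↦
    (Ideal.mul_le_left : (J : Ideal (𝓞 E)) * (J₂ : Ideal (𝓞 E)) ≤ (J : Ideal (𝓞 E))) hx
  have h1 := AddSubgroup.relIndex_mul_index hle
  have h2 : (J : Ideal (𝓞 E)).toAddSubgroup.index = Ideal.absNorm (J : Ideal (𝓞 E)) := by
    rw [Ideal.absNorm_apply, Submodule.cardQuot_apply]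
    rfl
  have h3 : ((J : Ideal (𝓞 E)) * (J₂ : Ideal (𝓞 E))).toAddSubgroup.index =
      Ideal.absNorm (J : Ideal (𝓞 E)) * Ideal.absNorm (J₂ : Ideal (𝓞 E)) := by
    rw [← map_mul, Ideal.absNorm_apply, Submodule.cardQuot_apply]
    rfl
  rw [h2, h3, mul_comm] at h1
  exact Nat.eq_of_mul_eq_mul_left
    (Nat.pos_of_ne_zero (Ideal.absNorm_ne_zero_of_nonZeroDivisors J)) h1

lemma relIndex_mul_right (J J₂ : (Ideal (𝓞 E))⁰) :
    ((J : Ideal (𝓞 E)) * (J₂ : Ideal (𝓞 E))).toAddSubgroup.relIndex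
      (J₂ : Ideal (𝓞 E)).toAddSubgroup = Ideal.absNorm (J : Ideal (𝓞 E)) := by
  rw [mul_comm]
  exact relIndex_mul_left J₂ J

/-- Elementary: for `a, b ≥ 1` and `0 ≤ t ≤ 1`, `|a ^ t - b ^ t| ≤ t * (a + b)`. -/
lemma abs_rpow_sub_rpow_le {a b t : ℝ} (ha : 1 ≤ a) (hb : 1 ≤ b) (ht0 : 0 ≤ t) (ht1 : t ≤ 1) :
    |a ^ t - b ^ t| ≤ t * (a + b) := by
  have key : ∀ x : ℝ, 1 ≤ x → 1 ≤ x ^ t ∧ x ^ t ≤ 1 + t * x := fun x hx ↦ by
    constructor
    · exact Real.one_le_rpow hx ht0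
    · have := _root_.rpow_one_add_le_one_add_mul_self (s := x - 1) (by linarith) ht0 ht1
      rw [show (1 : ℝ) + (x - 1) = x by ring] at this
      nlinarith
  obtain ⟨ha1, ha2⟩ := key a ha
  obtain ⟨hb1, hb2⟩ := key b hb
  rw [abs_le]
  constructor <;> nlinarith


/-- Real-number bookkeeping of the assembly. -/
lemma u6_real {a b w s S₁ S₂ S₃ B₁ B₂ M Z : ℝ} (ha : 1 ≤ a) (hb : 1 ≤ b) (hw : 0 < w)
    (hs1 : 1 < s) (hs2 : s ≤ 2) (hS₃ : 0 ≤ S₃)
    (h1 : |S₁ - b * S₃| ≤ B₁) (h2 : |S₂ - a * S₃| ≤ B₂)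
    (hZ : Z = (a * b) ^ s / w * S₃) (hZM : (s - 1) * Z ≤ M) :
    |a ^ s / w * S₁ - b ^ s / w * S₂| ≤ (a ^ 2 * B₁ + b ^ 2 * B₂ + a * b * (a + b) * w * M) / w := by
  have ha0 : 0 < a := by linarith
  have hb0 : 0 < b := by linarith
  have has : a ^ s ≤ a ^ 2 := by
    have := Real.rpow_le_rpow_of_exponent_le ha hs2
    rwa [Real.rpow_two] at this
  have hbs : b ^ s ≤ b ^ 2 := by
    have := Real.rpow_le_rpow_of_exponent_le hb hs2
    rwa [Real.rpow_two] at this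
  have has0 : 0 ≤ a ^ s := Real.rpow_nonneg ha0.le _
  have hbs0 : 0 ≤ b ^ s := Real.rpow_nonneg hb0.le _
  have hB₁ : 0 ≤ B₁ := (abs_nonneg _).trans h1
  have hB₂ : 0 ≤ B₂ := (abs_nonneg _).trans h2
  -- `S₃ ≤ w Z`
  have hab1 : 1 ≤ (a * b) ^ s := Real.one_le_rpow (by nlinarith) (by linarith)
  have hS₃Z : S₃ ≤ w * Z := by
    rw [hZ]
    have : w * ((a * b) ^ s / w * S₃) = (a * b) ^ s * S₃ := by field_simp
    rw [this]
    nlinarith
  have hS₃M : (s - 1) * S₃ ≤ w * M := by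
    have h3 : (s - 1) * S₃ ≤ (s - 1) * (w * Z) :=
      mul_le_mul_of_nonneg_left hS₃Z (by linarith)
    have h4 : (s - 1) * (w * Z) = w * ((s - 1) * Z) := by ring
    rw [h4] at h3
    exact h3.trans (mul_le_mul_of_nonneg_left hZM hw.le)
  -- the difference of powers
  have hpow : |a ^ (s - 1) - b ^ (s - 1)| ≤ (s - 1) * (a + b) :=
    abs_rpow_sub_rpow_le ha hb (by linarith) (by linarith)
  have hasplit : a ^ s = a * a ^ (s - 1) := by
    rw [show s = 1 + (s - 1) by ring, Real.rpow_add ha0, Real.rpow_one]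
    simp
  have hbsplit : b ^ s = b * b ^ (s - 1) := by
    rw [show s = 1 + (s - 1) by ring, Real.rpow_add hb0, Real.rpow_one]
    simp
  have hmain : a ^ s * S₁ - b ^ s * S₂ =
      a ^ s * (S₁ - b * S₃) - b ^ s * (S₂ - a * S₃) +
        a * b * (a ^ (s - 1) - b ^ (s - 1)) * S₃ := by
    rw [hasplit, hbsplit]; ring
  have e1 : |a ^ s * (S₁ - b * S₃)| ≤ a ^ 2 * B₁ := by
    rw [abs_mul, abs_of_nonneg has0]
    exact mul_le_mul has h1 (abs_nonneg _) (by positivity)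
  have e2 : |b ^ s * (S₂ - a * S₃)| ≤ b ^ 2 * B₂ := by
    rw [abs_mul, abs_of_nonneg hbs0]
    exact mul_le_mul hbs h2 (abs_nonneg _) (by positivity)
  have e3 : |a * b * (a ^ (s - 1) - b ^ (s - 1)) * S₃| ≤ a * b * (a + b) * w * M := by
    rw [abs_mul, abs_mul, abs_of_nonneg (by positivity : (0 : ℝ) ≤ a * b), abs_of_nonneg hS₃]
    calc a * b * |a ^ (s - 1) - b ^ (s - 1)| * S₃
        ≤ a * b * ((s - 1) * (a + b)) * S₃ := by
          apply mul_le_mul_of_nonneg_right _ hS₃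
          exact mul_le_mul_of_nonneg_left hpow (by positivity)
      _ = a * b * (a + b) * ((s - 1) * S₃) := by ring
      _ ≤ a * b * (a + b) * (w * M) :=
          mul_le_mul_of_nonneg_left hS₃M (by positivity)
      _ = a * b * (a + b) * w * M := by ring
  have hfin : |a ^ s * S₁ - b ^ s * S₂| ≤ a ^ 2 * B₁ + b ^ 2 * B₂ + a * b * (a + b) * w * M := by
    rw [hmain]
    calc _ ≤ |a ^ s * (S₁ - b * S₃) - b ^ s * (S₂ - a * S₃)| +
          |a * b * (a ^ (s - 1) - b ^ (s - 1)) * S₃| := abs_add_le _ _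
      _ ≤ (|a ^ s * (S₁ - b * S₃)| + |b ^ s * (S₂ - a * S₃)|) +
          |a * b * (a ^ (s - 1) - b ^ (s - 1)) * S₃| := by
          gcongr
          exact abs_sub _ _
      _ ≤ _ := by linarith
  have : a ^ s / w * S₁ - b ^ s / w * S₂ = (a ^ s * S₁ - b ^ s * S₂) / w := by
    field_simp
  rw [this, abs_div, abs_of_pos hw]
  exact div_le_div_of_nonneg_right hfin hw.le


/-- **(U6)** assembly: the cut-off properties (U2a) and the lattice-sum formula (U3) imply that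
the partial zeta functions of two classes differ by a bounded function on `(1, 2]`. -/
theorem classZetaDiffBounded_of (h2 : CutoffProps) (h3 : ClassZetaLatticeSum) :
    ClassZetaDiffBounded := by
  intro E _ _ c c'
  obtain ⟨L, R0, hφ⟩ := czBump_cutoff h2 E
  obtain ⟨J, hJ⟩ := ClassGroup.mk0_surjective c⁻¹
  obtain ⟨J₂, hJ₂⟩ := ClassGroup.mk0_surjective c'⁻¹
  have hP : ClassGroup.mk0 (J * J₂) = (c * c')⁻¹ := by
    rw [map_mul, hJ, hJ₂, mul_inv]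
  obtain ⟨M, hM0, hM⟩ := exists_sub_one_mul_zetaSum_le E
  have hPne : (J : Ideal (𝓞 E)) * (J₂ : Ideal (𝓞 E)) ≠ ⊥ := by
    have := nonZeroDivisors.coe_ne_zero (J * J₂)
    simpa using this
  obtain ⟨B₁, hB₁⟩ := czSum_compare hφ (J : Ideal (𝓞 E))
    ((J : Ideal (𝓞 E)) * (J₂ : Ideal (𝓞 E))) hPne Ideal.mul_le_left
  obtain ⟨B₂, hB₂⟩ := czSum_compare hφ (J₂ : Ideal (𝓞 E))
    ((J : Ideal (𝓞 E)) * (J₂ : Ideal (𝓞 E))) hPne Ideal.mul_le_right
  rw [relIndex_mul_left] at hB₁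
  rw [relIndex_mul_right] at hB₂
  have ha : (1 : ℝ) ≤ (Ideal.absNorm (J : Ideal (𝓞 E)) : ℝ) := by
    exact_mod_cast Nat.one_le_iff_ne_zero.mpr (Ideal.absNorm_ne_zero_of_nonZeroDivisors J)
  have hb : (1 : ℝ) ≤ (Ideal.absNorm (J₂ : Ideal (𝓞 E)) : ℝ) := by
    exact_mod_cast Nat.one_le_iff_ne_zero.mpr (Ideal.absNorm_ne_zero_of_nonZeroDivisors J₂)
  have hw : (0 : ℝ) < (torsionOrder E : ℝ) := by
    exact_mod_cast Nat.pos_of_ne_zero (torsionOrder_ne_zero E)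
  refine ⟨((Ideal.absNorm (J : Ideal (𝓞 E)) : ℝ) ^ 2 * B₁ +
    (Ideal.absNorm (J₂ : Ideal (𝓞 E)) : ℝ) ^ 2 * B₂ +
    (Ideal.absNorm (J : Ideal (𝓞 E)) : ℝ) * (Ideal.absNorm (J₂ : Ideal (𝓞 E)) : ℝ) *
      ((Ideal.absNorm (J : Ideal (𝓞 E)) : ℝ) + (Ideal.absNorm (J₂ : Ideal (𝓞 E)) : ℝ)) *
      (torsionOrder E : ℝ) * M) / (torsionOrder E : ℝ), fun s hs1 hs2 ↦ ?_⟩
  obtain ⟨sum1, eq1⟩ := h3 E c J hJ s hs1
  obtain ⟨sum2, eq2⟩ := h3 E c' J₂ hJ₂ s hs1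
  obtain ⟨sum3, eq3⟩ := h3 E (c * c') (J * J₂) hP s hs1
  have hS₃ : 0 ≤ czSum (cutoff E) s ((J : Ideal (𝓞 E)) * (J₂ : Ideal (𝓞 E))) :=
    tsum_nonneg fun γ ↦ czTerm_nonneg hφ s _
  have hZ : classZeta E (c * c') s =
      ((Ideal.absNorm (J : Ideal (𝓞 E)) : ℝ) * (Ideal.absNorm (J₂ : Ideal (𝓞 E)) : ℝ)) ^ s /
        (torsionOrder E : ℝ) * czSum (cutoff E) s ((J : Ideal (𝓞 E)) * (J₂ : Ideal (𝓞 E))) := by
    rw [eq3, Submonoid.coe_mul, map_mul, Nat.cast_mul]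
    rfl
  have hZM : (s - 1) * classZeta E (c * c') s ≤ M :=
    (mul_le_mul_of_nonneg_left (classZeta_le_zetaSum E (c * c') hs1) (by linarith)).trans
      (hM s hs1 hs2)
  have k1 := hB₁ s hs1.le hs2 sum1
  have k2 := hB₂ s hs1.le hs2 sum2
  rw [eq1, eq2]
  exact u6_real ha hb hw hs1 hs2 hS₃ k1 k2 hZ hZM

end Fermat.Agent.S14CZ
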