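import Mathlib
import Fermat.Agent.S14.ClassZeta.Defs
import Fermat.Agent.S14.Analytic.Defs
import Fermat.Agent.S14.CZ.ZetaBound

/-!
# S14, analytic route: `ClassZetaDiffBounded` implies `LBoundStatement` (P4)

`L(s, f) = ∑_c f(c) ζ(s, c)`, and if `∑_c f(c) = 0` this is `∑_c f(c) (ζ(s, c) - ζ(s, 1))`.
-/

set_option autoImplicit false

open NumberField Filter Topology
open scoped nonZeroDivisors

namespace Fermat.Agent.S14CZ

open Fermat.Agent.S14 (classZeta ClassZetaDiffBounded)
open Fermat.Agent.S14An (classOf twWeight LVal LBoundStatement)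
open Fermat.Agent.FrobDensity (normWeight zetaSum summable_normWeight normWeight_nonneg
  normWeight_bot)

open scoped Classical

variable (K : Type*) [Field K] [NumberField K]

/-- The weight `N(I)^(-s)` restricted to the nonzero ideals of the class `c`. -/
noncomputable def classWeight (c : ClassGroup (𝓞 K)) (s : ℝ) (I : Ideal (𝓞 K)) : ℝ :=
  if I ≠ ⊥ ∧ classOf K I = c then normWeight K s I else 0

lemma classWeight_nonneg (c : ClassGroup (𝓞 K)) (s : ℝ) (I : Ideal (𝓞 K)) :
    0 ≤ classWeight K c s I := by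
  unfold classWeight
  split_ifs
  · exact normWeight_nonneg s I
  · exact le_rfl

lemma classWeight_le (c : ClassGroup (𝓞 K)) (s : ℝ) (I : Ideal (𝓞 K)) :
    classWeight K c s I ≤ normWeight K s I := by
  unfold classWeight
  split_ifs
  · exact le_rfl
  · exact normWeight_nonneg s I

lemma summable_classWeight (c : ClassGroup (𝓞 K)) {s : ℝ} (hs : 1 < s) :
    Summable (classWeight K c s) :=
  Summable.of_nonneg_of_le (classWeight_nonneg K c s) (classWeight_le K c s)
    (summable_normWeight K hs)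

lemma classOf_coe (J : (Ideal (𝓞 K))⁰) : classOf K (J : Ideal (𝓞 K)) = ClassGroup.mk0 J := by
  unfold classOf
  have h : (J : Ideal (𝓞 K)) ≠ ⊥ := nonZeroDivisors.coe_ne_zero J
  rw [dif_neg h]

/-- The nonzero ideals of class `c`, as a subtype of all ideals. -/
noncomputable def classEquiv (c : ClassGroup (𝓞 K)) :
    {J : (Ideal (𝓞 K))⁰ // ClassGroup.mk0 J = c} ≃
      {I : Ideal (𝓞 K) // I ≠ ⊥ ∧ classOf K I = c} where
  toFun J := ⟨(J.1 : Ideal (𝓞 K)), nonZeroDivisors.coe_ne_zero J.1, by rw [classOf_coe]; exact J.2⟩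
  invFun I := ⟨⟨I.1, mem_nonZeroDivisors_of_ne_zero I.2.1⟩, by
    have := I.2.2
    rwa [← classOf_coe] ⟩
  left_inv J := rfl
  right_inv I := rfl

lemma tsum_classWeight (c : ClassGroup (𝓞 K)) (s : ℝ) :
    ∑' I, classWeight K c s I = classZeta K c s := by
  have h1 : ∑' I, classWeight K c s I =
      ∑' I : {I : Ideal (𝓞 K) // I ≠ ⊥ ∧ classOf K I = c}, normWeight K s (I : Ideal (𝓞 K)) := by
    have h2 := tsum_subtype {I : Ideal (𝓞 K) | I ≠ ⊥ ∧ classOf K I = c} (normWeight K s)
    refine Eq.trans ?_ h2.symm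
    refine tsum_congr fun I ↦ ?_
    unfold classWeight Set.indicator
    by_cases hI : I ≠ ⊥ ∧ classOf K I = c
    · rw [if_pos hI, if_pos (show I ∈ {I : Ideal (𝓞 K) | I ≠ ⊥ ∧ classOf K I = c} from hI)]
    · rw [if_neg hI, if_neg (show ¬ I ∈ {I : Ideal (𝓞 K) | I ≠ ⊥ ∧ classOf K I = c} from hI)]
  rw [h1, ← (classEquiv K c).tsum_eq]
  rfl

/-- The twisted weight is the combination of the class weights. -/
lemma twWeight_eq_sum (f : ClassGroup (𝓞 K) → ℂ) {s : ℝ} (hs : s ≠ 0) (I : Ideal (𝓞 K)) :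
    twWeight K f s I = ∑ c, f c * (classWeight K c s I : ℂ) := by
  unfold twWeight
  by_cases hI : I = ⊥
  · subst hI
    rw [normWeight_bot hs]
    simp [classWeight]
  · rw [Finset.sum_eq_single (classOf K I)]
    · unfold classWeight
      rw [if_pos ⟨hI, rfl⟩]
    · intro c _ hc
      unfold classWeight
      rw [if_neg (fun h ↦ hc h.2.symm)]
      simp
    · intro h
      exact absurd (Finset.mem_univ _) h

/-- `L(s, f) = ∑_c f(c) ζ(s, c)`. -/
lemma LVal_eq_sum (f : ClassGroup (𝓞 K) → ℂ) {s : ℝ} (hs : 1 < s) :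
    LVal K f s = ∑ c, f c * (classZeta K c s : ℂ) := by
  unfold LVal
  have h1 : ∀ c, Summable fun I ↦ f c * (classWeight K c s I : ℂ) := fun c ↦
    ((Complex.summable_ofReal).mpr (summable_classWeight K c hs)).mul_left _
  calc ∑' I, twWeight K f s I = ∑' I, ∑ c, f c * (classWeight K c s I : ℂ) :=
        tsum_congr fun I ↦ twWeight_eq_sum K f (by linarith) I
    _ = ∑ c, ∑' I, f c * (classWeight K c s I : ℂ) :=
        Summable.tsum_finsetSum fun c _ ↦ h1 c
    _ = ∑ c, f c * (classZeta K c s : ℂ) := by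
        refine Finset.sum_congr rfl fun c _ ↦ ?_
        rw [tsum_mul_left, ← Complex.ofReal_tsum, tsum_classWeight]

/-- **(P4) from the analytic core.** -/
theorem lBound_of_classZetaDiffBounded (h : ClassZetaDiffBounded) : LBoundStatement := by
  intro K _ _ f hf
  choose B hB using fun c ↦ h K c 1
  refine ⟨∑ c, ‖f c‖ * B c, fun s hs1 hs2 ↦ ?_⟩
  rw [LVal_eq_sum K f hs1]
  have h0 : ∑ c, f c * (classZeta K c s : ℂ) =
      ∑ c, f c * ((classZeta K c s - classZeta K 1 s : ℝ) : ℂ) := by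
    have : ∑ c, f c * ((classZeta K c s - classZeta K 1 s : ℝ) : ℂ) =
        ∑ c, f c * (classZeta K c s : ℂ) - (∑ c, f c) * (classZeta K 1 s : ℂ) := by
      rw [Finset.sum_mul, ← Finset.sum_sub_distrib]
      refine Finset.sum_congr rfl fun c _ ↦ ?_
      push_cast
      ring
    rw [this, hf, zero_mul, sub_zero]
  rw [h0]
  refine (norm_sum_le _ _).trans (Finset.sum_le_sum fun c _ ↦ ?_)
  rw [norm_mul, Complex.norm_real, Real.norm_eq_abs]
  exact mul_le_mul_of_nonneg_left (hB c s hs1 hs2) (norm_nonneg _)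

end Fermat.Agent.S14CZ
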