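import Fermat.Agent.S14.ClassZeta.Cutoff
import Fermat.Agent.S14.ClassZeta.LatticeSum
import Fermat.Agent.S14.CZ.Assembly
import Fermat.Agent.S14.CZ.LBound

/-!
# S14, analytic core (second route): partial zeta functions of two ideal classes differ by a
bounded function on `(1, 2]`, unconditionally; hence `L(s, f)` is bounded when `∑ f = 0`.
-/

namespace Fermat.Agent.S14CZ

/-- Partial zeta functions of two ideal classes differ by a bounded function on `(1, 2]`. -/
theorem classZetaDiffBounded : Fermat.Agent.S14.ClassZetaDiffBounded :=
  classZetaDiffBounded_of Fermat.Agent.S14.cutoffProps Fermat.Agent.S14.classZetaLatticeSum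

/-- Second proof of `LBoundStatement` (no lattice point counting). -/
theorem lBoundStatement' : Fermat.Agent.S14An.LBoundStatement :=
  lBound_of_classZetaDiffBounded classZetaDiffBounded

end Fermat.Agent.S14CZ
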